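import Fermat.Agent.EstermannBoundary.Zeros

/-!
# The natural boundary

A meromorphic function on a connected domain that equals `∏ W (p ^ (-s))` on a part of
`1 < re s` lives in `0 < re s`, unless all the roots of `W` are roots of unity.
-/

set_option autoImplicit false

noncomputable section

open Polynomial Filter Topology Metric
open Complex (I)

namespace FA.Estermann

variable {W : ℤ[X]}

/-- The points near which `f` agrees with the continuation. -/
def agreeW (W : ℤ[X]) (f : ℂ → ℂ) : Set ℂ := {x | f =ᶠ[𝓝[≠] x] contW W}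

theorem isOpen_agreeW (W : ℤ[X]) (f : ℂ → ℂ) : IsOpen (agreeW W f) := by
  rw [isOpen_iff_mem_nhds]
  intro x hx
  obtain ⟨U, hU, hxU, hsub⟩ := mem_nhdsWithin.1 (hx : f =ᶠ[𝓝[≠] x] contW W)
  filter_upwards [hU.mem_nhds hxU] with y hy
  rcases eq_or_ne y x with rfl | hne
  · exact hx
  · have h : f =ᶠ[𝓝 y] contW W :=
      mem_of_superset ((hU.inter isOpen_compl_singleton).mem_nhds ⟨hy, hne⟩) hsub
    exact h.filter_mono nhdsWithin_le_nhds

theorem mem_agreeW_of_mem_closure (hW : W.coeff 0 = 1) {f : ℂ → ℂ} {x : ℂ}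
    (hf : MeromorphicAt f x) (hx : 0 < x.re) (hc : x ∈ closure (agreeW W f)) :
    x ∈ agreeW W f := by
  rcases (hf.sub (meromorphicOn_contW hW x hx)).eventually_eq_zero_or_eventually_ne_zero with h | h
  · exact h.mono fun z hz => sub_eq_zero.1 hz
  by_contra hnot
  obtain ⟨U, hU, hxU, hsub⟩ := mem_nhdsWithin.1 h
  obtain ⟨y, hyU, hy⟩ := mem_closure_iff.1 hc U hU hxU
  have hyx : y ≠ x := fun e => hnot (e ▸ hy)
  have h1 : ∀ᶠ z in 𝓝[≠] y, (f - contW W) z ≠ 0 :=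
    nhdsWithin_le_nhds
      (mem_of_superset ((hU.inter isOpen_compl_singleton).mem_nhds ⟨hyU, hyx⟩) hsub)
  obtain ⟨z, hz1, hz2⟩ := (h1.and (hy : f =ᶠ[𝓝[≠] y] contW W)).exists
  exact hz1 (sub_eq_zero.2 hz2)

theorem agreeW_of_isPreconnected (hW : W.coeff 0 = 1) {f : ℂ → ℂ} {V : Set ℂ}
    (hV : IsPreconnected V) (hpos : ∀ z ∈ V, 0 < z.re) (hf : MeromorphicOn f V)
    (hne : (V ∩ agreeW W f).Nonempty) : V ⊆ agreeW W f :=
  hV.subset_of_closure_inter_subset (isOpen_agreeW W f) hne fun x hx =>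
    mem_agreeW_of_mem_closure hW (hf x hx.2) (hpos x hx.2) hx.1

theorem mem_agreeW_of_eq (hW : W.coeff 0 = 1) {f : ℂ → ℂ} {s : ℂ} (hs : 1 < s.re)
    (heq : ∀ᶠ z in 𝓝 s, f z = eulerW W z) : s ∈ agreeW W f := by
  refine EventuallyEq.filter_mono ?_ nhdsWithin_le_nhds
  filter_upwards [heq, (isOpen_lt continuous_const Complex.continuous_re).mem_nhds hs]
    with z hz hz1 using by rw [hz, contW_eq_eulerW hW hz1]

/-- **Nothing meromorphic at a point of the axis agrees with the continuation nearby.** -/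
theorem not_agreeW_near_axis (hW : W.coeff 0 = 1)
    (hu : ∃ z : ℂ, aeval z W = 0 ∧ ∀ n, 0 < n → z ^ n ≠ 1) {g : ℂ → ℂ} {t r : ℝ} (hr : 0 < r)
    (hg : MeromorphicAt g (t * I))
    (hagree : ∀ z ∈ ball (t * I : ℂ) r, 0 < z.re → z ∈ agreeW W g) : False := by
  obtain ⟨z, hz, hz0, hz1⟩ := exists_root_norm_lt_one hW hu
  obtain ⟨U, hU, hxU, hsub⟩ := mem_nhdsWithin.1 hg.eventually_analyticAt
  rcases hg.eventually_eq_zero_or_eventually_ne_zero with hzero | hne
  all_goals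
    obtain ⟨V, hV, hxV, hVsub⟩ := mem_nhdsWithin.1 (by assumption : ∀ᶠ w in 𝓝[≠] (t * I : ℂ), _)
  all_goals
    obtain ⟨δ, hδ, hδU⟩ := Metric.isOpen_iff.1 (hU.inter hV) _ ⟨hxU, hxV⟩
    obtain ⟨s, hs, hd, ha, h0⟩ := exists_zero_near hW hz hz0 hz1 t (lt_min hr hδ)
    have hsb : s ∈ ball (t * I : ℂ) δ := mem_ball.2 (hd.trans_le (min_le_right _ _))
    have hst : s ≠ t * I := fun e => by simp [e] at hs
    have he : g =ᶠ[𝓝[≠] s] contW W :=
      hagree s (mem_ball.2 (hd.trans_le (min_le_left _ _))) hs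
    have hga : AnalyticAt ℂ g s := hsub ⟨(hδU hsb).1, hst⟩
    have hgs : g s = 0 := h0 ▸ tendsto_nhds_unique
      (hga.continuousAt.tendsto.mono_left nhdsWithin_le_nhds)
      ((ha.continuousAt.tendsto.mono_left nhdsWithin_le_nhds).congr' he.symm)
  · refine order_contW_ne_top hW hs (meromorphicOrderAt_eq_top_iff.2 (he.rw (fun _ b => b = 0) ?_))
    exact nhdsWithin_le_nhds (mem_of_superset
      ((hV.inter isOpen_compl_singleton).mem_nhds ⟨(hδU hsb).2, hst⟩) hVsub)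
  · exact hVsub ⟨(hδU hsb).2, hst⟩ hgs

/-- **A connected domain of meromorphy lies in `0 < re s`.** -/
theorem subset_re_pos (hW : W.coeff 0 = 1)
    (hu : ∃ z : ℂ, aeval z W = 0 ∧ ∀ n, 0 < n → z ^ n ≠ 1) {U : Set ℂ} (hU : IsOpen U)
    (hU' : IsPreconnected U) {h : ℂ → ℂ} (hh : MeromorphicOn h U) (hne : ∃ s ∈ U, 1 < s.re)
    (heq : ∀ s ∈ U, 1 < s.re → h s = eulerW W s) : U ⊆ {s | 0 < s.re} := by
  obtain ⟨V, hV⟩ : ∃ V, V = agreeW W h ∩ {s : ℂ | 0 < s.re} := ⟨_, rfl⟩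
  have hVo : IsOpen V :=
    hV ▸ (isOpen_agreeW W h).inter (isOpen_lt continuous_const Complex.continuous_re)
  obtain ⟨s, hs, hs1⟩ := hne
  have hsV : s ∈ V := hV ▸ ⟨mem_agreeW_of_eq hW hs1 (by
    filter_upwards [hU.mem_nhds hs, (isOpen_lt continuous_const Complex.continuous_re).mem_nhds hs1]
      with z hz hz1 using heq z hz hz1), show 0 < s.re by linarith⟩
  refine fun x hx => (hV ▸ hU'.subset_of_closure_inter_subset hVo ⟨s, hs, hsV⟩ ?_ hx :
    x ∈ agreeW W h ∩ {s : ℂ | 0 < s.re}).2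
  rintro y ⟨hc, hy⟩
  have hsub : V ⊆ {z : ℂ | 0 ≤ z.re} := by
    rw [hV]
    exact fun z hz => show 0 ≤ z.re from le_of_lt hz.2
  have hy0 : 0 ≤ y.re :=
    closure_minimal hsub (isClosed_le continuous_const Complex.continuous_re) hc
  rcases hy0.lt_or_eq with hpos | hzero
  · exact hV ▸ ⟨mem_agreeW_of_mem_closure hW (hh y hy) hpos
      (closure_mono (hV ▸ Set.inter_subset_left) hc), hpos⟩
  obtain ⟨r, hr, hrU⟩ := Metric.isOpen_iff.1 hU y hy
  have hey : y = (y.im : ℝ) * I := Complex.ext (by simp [← hzero]) (by simp)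
  refine absurd (not_agreeW_near_axis hW hu hr (hey ▸ hh y hy) (g := h) fun z hz hz0 => ?_) id
  rw [← hey] at hz
  obtain ⟨w, hwb, hwV⟩ := mem_closure_iff.1 hc (ball y r) isOpen_ball (mem_ball_self hr)
  rw [hV] at hwV
  exact agreeW_of_isPreconnected hW (V := ball y r ∩ {s : ℂ | 0 < s.re})
    ((convex_ball y r).inter (convex_halfSpace_re_gt 0)).isPreconnected (fun _ hv => hv.2)
    (fun v hv => hh v (hrU hv.1)) ⟨w, ⟨hwb, hwV.2⟩, hwV.1⟩ ⟨hz, hz0⟩

/-- **With all roots roots of unity the product continues to `ℂ`.** -/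
theorem exists_meromorphic_univ (hW : W.coeff 0 = 1)
    (hu : ∀ z : ℂ, aeval z W = 0 → ∃ n, 0 < n ∧ z ^ n = 1) :
    ∃ f : ℂ → ℂ, MeromorphicOn f Set.univ ∧ ∀ s : ℂ, 1 < s.re → f s = eulerW W s := by
  obtain ⟨A, B, hA, hB, e⟩ := exists_split_of_roots hW hu
  refine ⟨fun s => zetaL A s / zetaL B s,
    fun s _ => (meromorphicAt_zetaL A s).div (meromorphicAt_zetaL B s), fun s hs => ?_⟩
  have hk : ∀ {l : List ℕ}, (∀ k ∈ l, 0 < k) → ∀ k ∈ l, 1 < (k : ℝ) * s.re := fun hl k hk =>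
    hs.trans_le (le_mul_of_one_le_left (by linarith) (Nat.one_le_cast.2 (hl k hk)))
  have h1 := (hasProd_polL (s := s) (hk hB)).mul ((hasProd_polL (s := s) (hk hA)).inv₀
    (inv_ne_zero (zetaL_ne_zero fun k hk' =>
      riemannZeta_ne_zero_of_one_lt_re (one_lt_re_natMul (hk hA k hk')))))
  rw [inv_inv, ← div_eq_inv_mul] at h1
  refine h1.tprod_eq.symm.trans (tprod_congr fun p => ?_)
  rw [← div_eq_mul_inv, div_eq_iff (aeval_polL_ne_zero hA (norm_prime_cpow_lt_one p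
    (by linarith))), ← map_mul, e]

end FA.Estermann

end
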