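import Fermat.Agent.EstermannBoundary.Boundary
import Fermat.Agent.Forms3.RepresentationBound

/-!
# The series of `d n ^ 2` and of `d₃ n ^ 2`

`∑ d n ^ 2 n^(-s) = ζ s ^ 4 / ζ (2 s)`, and `∑ d₃ n ^ 2 n^(-s)` is `ζ s ^ 9` times the product of
`(1 + 4 x + x²) (1 - x) ^ 4` at `x = p^(-s)`.
-/

set_option autoImplicit false

noncomputable section

open Polynomial Filter Topology
open ArithmeticFunction (sigma)

namespace FA.Estermann

variable {s : ℂ}

/-- The ways to write `n` as a product of three factors. -/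
def dThree (n : ℕ) : ℕ := ∑ d ∈ n.divisors, d.divisors.card

/-- The polynomial of the series of `d₃ n ^ 2`. -/
def wThree : ℤ[X] := (1 + 4 * X + X ^ 2) * (1 - X) ^ 4

theorem dThree_mul {m n : ℕ} (h : m.Coprime n) : dThree (m * n) = dThree m * dThree n := by
  have e : ∀ k : ℕ, ((ArithmeticFunction.zeta : ArithmeticFunction ℕ) * sigma 0) k = dThree k :=
    fun k => by
      rw [ArithmeticFunction.mul_apply, Nat.sum_divisorsAntidiagonal' (fun a b =>
        (ArithmeticFunction.zeta : ArithmeticFunction ℕ) a * sigma 0 b), dThree]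
      refine Finset.sum_congr rfl fun d hd => ?_
      rw [ArithmeticFunction.zeta_apply_ne (Nat.div_ne_zero_iff.2 ⟨(Nat.pos_of_mem_divisors hd).ne',
        Nat.divisor_le hd⟩), one_mul, ArithmeticFunction.sigma_zero_apply]
  simp only [← e]
  exact (ArithmeticFunction.isMultiplicative_zeta.mul
    ArithmeticFunction.isMultiplicative_sigma).map_mul_of_coprime h

theorem dThree_prime_pow {p : ℕ} (hp : p.Prime) (j : ℕ) :
    dThree (p ^ j) = Nat.choose (j + 2) 2 := by
  rw [dThree, Nat.sum_divisors_prime_pow (f := fun d => d.divisors.card) hp]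
  simp only [← ArithmeticFunction.sigma_zero_apply,
    ArithmeticFunction.sigma_zero_apply_prime_pow hp]
  induction j with
  | zero => simp
  | succ j ih =>
    rw [Finset.sum_range_succ, ih, Nat.choose_succ_succ' (j + 2) 1, Nat.choose_one_right]
    ring

theorem cast_choose_add (j k : ℕ) :
    ((k.factorial : ℕ) : ℂ) * ((j + k).choose k : ℂ) =
      ∏ i ∈ Finset.range k, (j + (k - i : ℕ) : ℂ) := by
  have h := congrArg (Nat.cast : ℕ → ℂ) (Nat.descFactorial_eq_factorial_mul_choose (j + k) k)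
  rw [Nat.descFactorial_eq_prod_range, Nat.cast_prod, Nat.cast_mul] at h
  rw [← h]
  refine Finset.prod_congr rfl fun i hi => ?_
  rw [Finset.mem_range] at hi
  rw [← Nat.cast_add, Nat.add_sub_assoc hi.le]

theorem summable_term_of_le {f : ℕ → ℕ}
    (hf : ∀ ε : ℝ, 0 < ε → ∃ C : ℝ, ∀ n : ℕ, n ≠ 0 → (f n : ℝ) ≤ C * (n : ℝ) ^ ε)
    (hs : 1 < s.re) : LSeriesSummable (fun n => ((f n : ℂ)) ^ 2) s := by
  obtain ⟨C, hC⟩ := hf ((s.re - 1) / 4) (by linarith)
  refine LSeriesSummable_of_le_const_mul_rpow (x := 1 + (s.re - 1) / 2) (by linarith)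
    ⟨C ^ 2, fun n hn => ?_⟩
  rw [norm_pow, Complex.norm_natCast]
  refine (pow_le_pow_left₀ (Nat.cast_nonneg _) (hC n hn) 2).trans (le_of_eq ?_)
  rw [mul_pow, ← Real.rpow_natCast ((n : ℝ) ^ _) 2, ← Real.rpow_mul (Nat.cast_nonneg n)]
  norm_num
  left
  ring_nf

theorem exists_dThree_le {ε : ℝ} (hε : 0 < ε) :
    ∃ C : ℝ, ∀ n : ℕ, n ≠ 0 → (dThree n : ℝ) ≤ C * (n : ℝ) ^ ε := by
  obtain ⟨C, hC, h⟩ := FA.RepresentationBound.card_divisors_isBigO (ε / 2) (by positivity)
  refine ⟨C * C, fun n hn => ?_⟩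
  have hn0 : (0 : ℝ) < n := Nat.cast_pos.2 (Nat.pos_of_ne_zero hn)
  have h1 : ∀ d ∈ n.divisors, (d.divisors.card : ℝ) ≤ C * (n : ℝ) ^ (ε / 2) := fun d hd =>
    (h d (Nat.pos_of_mem_divisors hd).ne').trans (mul_le_mul_of_nonneg_left
      (Real.rpow_le_rpow (Nat.cast_nonneg d) (Nat.cast_le.2 (Nat.divisor_le hd)) (by positivity))
      (by linarith))
  rw [dThree, Nat.cast_sum]
  refine (Finset.sum_le_card_nsmul _ _ _ h1).trans ?_
  rw [nsmul_eq_mul]
  refine (mul_le_mul_of_nonneg_right (h n hn) (by positivity)).trans (le_of_eq ?_)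
  rw [mul_mul_mul_comm, ← Real.rpow_add hn0, add_halves]

/-- A series with a multiplicative coefficient as a product. -/
theorem hasProd_lseries_sq {f : ℕ → ℕ} (h1 : f 1 = 1)
    (hmul : ∀ {m n : ℕ}, m.Coprime n → f (m * n) = f m * f n)
    (hsum : LSeriesSummable (fun n => ((f n : ℂ)) ^ 2) s) :
    HasProd (fun p : Nat.Primes =>
      ∑' j : ℕ, ((f ((p : ℕ) ^ j) : ℂ)) ^ 2 * ((p : ℂ) ^ (-s)) ^ j)
      (LSeries (fun n => ((f n : ℂ)) ^ 2) s) := by
  refine (EulerProduct.eulerProduct_hasProd (f := LSeries.term (fun n => ((f n : ℂ)) ^ 2) s)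
    ?_ (fun {m n} h => ?_) hsum.norm (LSeries.term_zero _ _)).congr_fun fun p => ?_
  · simp [LSeries.term, h1]
  · rcases eq_or_ne m 0 with rfl | hm
    · simp
    rcases eq_or_ne n 0 with rfl | hn
    · simp
    rw [LSeries.term_of_ne_zero (mul_ne_zero hm hn), LSeries.term_of_ne_zero hm,
      LSeries.term_of_ne_zero hn, hmul h, Nat.cast_mul, Nat.cast_mul,
      Complex.natCast_mul_natCast_cpow, mul_pow, mul_div_mul_comm]
  · refine tsum_congr fun j => ?_
    rw [LSeries.term_of_ne_zero (pow_ne_zero _ p.2.ne_zero), div_eq_mul_inv, ← Complex.cpow_neg,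
      FA.PrimeZeta.cpow_neg_mul_nat]

theorem hasSum_choose_pow {x : ℂ} (hx : ‖x‖ < 1) (k : ℕ) :
    HasSum (fun n : ℕ => ((n + k).choose k : ℂ) * x ^ n) (((1 - x)⁻¹) ^ (k + 1)) := by
  simpa [Ring.inverse_eq_inv] using hasSum_choose_mul_geometric_of_norm_lt_one' k hx

theorem hasProd_zeta_pow (hs : 1 < s.re) (k : ℕ) :
    HasProd (fun p : Nat.Primes => ((1 - (p : ℂ) ^ (-s))⁻¹) ^ k) (riemannZeta s ^ k) := by
  induction k with
  | zero => simp
  | succ k ih => simpa [pow_succ] using ih.mul (riemannZeta_eulerProduct_hasProd hs)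

theorem wThree_coeff_zero : wThree.coeff 0 = 1 := by
  simp [wThree, coeff_zero_eq_eval_zero]

/-- `∑ d₃ n ^ 2 n^(-s) = ζ s ^ 9 ∏ wThree (p^(-s))`. -/
theorem lseries_dThree_sq (hs : 1 < s.re) :
    LSeries (fun n => ((dThree n : ℂ)) ^ 2) s = riemannZeta s ^ 9 * eulerW wThree s := by
  refine (hasProd_lseries_sq (f := dThree) (by simp [dThree]) dThree_mul
    (summable_term_of_le (fun ε => exists_dThree_le) hs)).unique ?_
  refine ((hasProd_zeta_pow hs 9).mul
    (multipliable_eulerW wThree_coeff_zero hs).hasProd).congr_fun fun p => ?_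
  obtain ⟨x, hx⟩ : ∃ x, x = (p : ℂ) ^ (-s) := ⟨_, rfl⟩
  have hx1 : ‖x‖ < 1 := hx ▸ norm_prime_cpow_lt_one p (by linarith)
  have hne : 1 - x ≠ 0 := sub_ne_zero.2 fun e => by rw [← e, norm_one] at hx1; exact hx1.false
  have hS := (((hasSum_choose_pow hx1 4).mul_left 6).sub
    ((hasSum_choose_pow hx1 3).mul_left 6)).add (hasSum_choose_pow hx1 2)
  have hterm : ∀ j : ℕ, ((dThree ((p : ℕ) ^ j) : ℂ)) ^ 2 * x ^ j =
      6 * (((j + 4).choose 4 : ℂ) * x ^ j) - 6 * (((j + 3).choose 3 : ℂ) * x ^ j) +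
        ((j + 2).choose 2 : ℂ) * x ^ j := fun j => by
    have h2 := cast_choose_add j 2
    have h3 := cast_choose_add j 3
    have h4 := cast_choose_add j 4
    simp only [Finset.prod_range_succ, Finset.prod_range_zero] at h2 h3 h4
    norm_num [Nat.factorial] at h2 h3 h4
    rw [dThree_prime_pow p.2]
    linear_combination (x ^ j * ((j + 2).choose 2 : ℂ) / 2 +
      x ^ j * ((j + 2 : ℂ) * (j + 1)) / 4 - x ^ j / 2) * h2 + x ^ j * h3 - x ^ j / 4 * h4
  rw [← hx, tsum_congr hterm, hS.tsum_eq]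
  simp only [inv_pow]
  simp only [wThree, map_mul, map_add, map_sub, map_one, map_ofNat, map_pow, aeval_X]
  field_simp
  ring

theorem exists_root_wThree :
    ∃ z : ℂ, aeval z wThree = 0 ∧ ∀ n, 0 < n → z ^ n ≠ 1 := by
  have h3 : Real.sqrt 3 ^ 2 = 3 := Real.sq_sqrt (by norm_num)
  refine ⟨((-2 - Real.sqrt 3 : ℝ) : ℂ), ?_, fun n hn e => ?_⟩
  · have : 1 + 4 * (-2 - Real.sqrt 3) + (-2 - Real.sqrt 3) ^ 2 = 0 := by nlinarith
    have hc : (1 : ℂ) + 4 * ((-2 - Real.sqrt 3 : ℝ) : ℂ) + ((-2 - Real.sqrt 3 : ℝ) : ℂ) ^ 2 =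
        0 := by
      exact_mod_cast congrArg Complex.ofReal this
    simp only [wThree, map_mul, map_add, map_one, map_ofNat, map_pow, aeval_X, hc, zero_mul]
  · have h := congrArg norm e
    rw [norm_pow, Complex.norm_real, norm_one] at h
    have : (1 : ℝ) < ‖-2 - Real.sqrt 3‖ := by
      rw [Real.norm_eq_abs, abs_of_neg (by linarith [Real.sqrt_nonneg 3])]
      linarith [Real.sqrt_nonneg 3]
    exact (one_lt_pow₀ this hn.ne').ne' h

/-- `∑ d n ^ 2 n^(-s) = ζ s ^ 4 / ζ (2 s)`. -/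
theorem lseries_card_divisors_sq (hs : 1 < s.re) :
    LSeries (fun n => ((n.divisors.card : ℂ)) ^ 2) s = riemannZeta s ^ 4 / riemannZeta (2 * s) := by
  have hb : ∀ ε : ℝ, 0 < ε →
      ∃ C : ℝ, ∀ n : ℕ, n ≠ 0 → (n.divisors.card : ℝ) ≤ C * (n : ℝ) ^ ε := fun ε hε => by
    obtain ⟨C, -, h⟩ := FA.RepresentationBound.card_divisors_isBigO ε hε
    exact ⟨C, h⟩
  refine (hasProd_lseries_sq (f := fun n => n.divisors.card) (by simp)
    (fun h => Nat.Coprime.card_divisors_mul h) (summable_term_of_le hb hs)).unique ?_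
  have h2 : ∀ k ∈ [2], 1 < ((k : ℕ) : ℝ) * s.re := by
    simp only [List.forall_mem_singleton, Nat.cast_ofNat]
    linarith
  have hp := (hasProd_zeta_pow hs 4).mul (hasProd_polL (s := s) h2)
  rw [show (zetaL [2] s)⁻¹ = (riemannZeta (2 * s))⁻¹ by simp [zetaL], ← div_eq_mul_inv] at hp
  refine hp.congr_fun fun p => ?_
  obtain ⟨x, hx⟩ : ∃ x, x = (p : ℂ) ^ (-s) := ⟨_, rfl⟩
  have hx1 : ‖x‖ < 1 := hx ▸ norm_prime_cpow_lt_one p (by linarith)
  have hne : 1 - x ≠ 0 := sub_ne_zero.2 fun e => by rw [← e, norm_one] at hx1; exact hx1.false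
  have hS := ((hasSum_choose_pow hx1 2).mul_left 2).sub (hasSum_choose_pow hx1 1)
  have hterm : ∀ j : ℕ, ((((p : ℕ) ^ j).divisors.card : ℕ) : ℂ) ^ 2 * x ^ j =
      2 * (((j + 2).choose 2 : ℂ) * x ^ j) - ((j + 1).choose 1 : ℂ) * x ^ j := fun j => by
    have h := cast_choose_add j 2
    simp only [Finset.prod_range_succ, Finset.prod_range_zero] at h
    norm_num [Nat.factorial] at h
    rw [← ArithmeticFunction.sigma_zero_apply, ArithmeticFunction.sigma_zero_apply_prime_pow p.2,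
      Nat.choose_one_right]
    push_cast
    linear_combination -(x ^ j) * h
  rw [← hx, tsum_congr hterm, hS.tsum_eq]
  simp only [inv_pow]
  simp only [polL_cons, polL_nil, map_sub, map_one, map_pow, aeval_X, mul_one]
  field_simp
  ring

end FA.Estermann

end
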