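import Fermat.Agent.EstermannBoundary.Split
import Fermat.Agent.PrimeZeta.Series

/-!
# The continuation of `∏ W (p ^ (-s))`

For `1 < (K + 1) re s` it is `∏_p (1 + O (p ^ (-(K + 1) s)))` times finitely many `ζ (k s)`.
-/

set_option autoImplicit false

noncomputable section

open Polynomial Filter Topology
open Complex hiding exp

namespace FA.Estermann

variable {W : ℤ[X]} {s : ℂ} {A B : List ℕ}

/-- `∏_p W (p ^ (-s))`. -/
def eulerW (W : ℤ[X]) (s : ℂ) : ℂ := ∏' p : Nat.Primes, aeval ((p : ℂ) ^ (-s)) W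

/-- `∏ ζ (k s)` over a list. -/
def zetaL (l : List ℕ) (s : ℂ) : ℂ := (l.map fun k : ℕ => riemannZeta ((k : ℂ) * s)).prod

/-- The Euler factor left over. -/
def corr (W : ℤ[X]) (A B : List ℕ) (p : Nat.Primes) (s : ℂ) : ℂ :=
  aeval ((p : ℂ) ^ (-s)) W * aeval ((p : ℂ) ^ (-s)) (polL A) / aeval ((p : ℂ) ^ (-s)) (polL B)

/-- The continuation on `1 < (K + 1) re s`. -/
def stepFn (W : ℤ[X]) (K : ℕ) (s : ℂ) : ℂ :=
  (∏' p : Nat.Primes, corr W (splitLists W K).1 (splitLists W K).2 p s) *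
    (zetaL (splitLists W K).1 s / zetaL (splitLists W K).2 s)

/-- **The continuation to `0 < re s`.** -/
def contW (W : ℤ[X]) (s : ℂ) : ℂ := stepFn W ⌊1 / s.re⌋₊ s

theorem norm_prime_cpow_lt_one (p : Nat.Primes) (hs : 0 < s.re) : ‖(p : ℂ) ^ (-s)‖ < 1 := by
  rw [FA.PrimeZeta.norm_prime_cpow]
  exact Real.rpow_lt_one_of_one_lt_of_neg (Nat.one_lt_cast.2 p.2.one_lt) (neg_lt_zero.2 hs)

theorem norm_prime_cpow_le (p : Nat.Primes) {δ : ℝ} (hδ : 0 ≤ δ) (hs : δ ≤ s.re) :
    ‖(p : ℂ) ^ (-s)‖ ≤ (2 : ℝ) ^ (-δ) := by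
  rw [FA.PrimeZeta.norm_prime_cpow]
  exact (Real.rpow_le_rpow_of_exponent_le (Nat.one_le_cast.2 p.2.one_le) (neg_le_neg hs)).trans
    (Real.rpow_le_rpow_of_nonpos two_pos (Nat.ofNat_le_cast.2 p.2.two_le) (neg_nonpos.2 hδ))

theorem zetaL_append (A B : List ℕ) (s : ℂ) : zetaL (A ++ B) s = zetaL A s * zetaL B s := by
  simp [zetaL]

theorem zetaL_ne_zero {l : List ℕ} (hl : ∀ k ∈ l, riemannZeta ((k : ℂ) * s) ≠ 0) :
    zetaL l s ≠ 0 :=
  List.prod_ne_zero fun h => by
    obtain ⟨k, hk, e⟩ := List.mem_map.1 h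
    exact hl k hk e

theorem one_lt_re_natMul {k : ℕ} (h : 1 < k * s.re) : 1 < ((k : ℂ) * s).re := by simpa using h

/-- `∏_p ∏ (1 - p ^ (-ks)) = 1 / ∏ ζ (k s)`. -/
theorem hasProd_polL {l : List ℕ} (hl : ∀ k ∈ l, 1 < k * s.re) :
    HasProd (fun p : Nat.Primes => aeval ((p : ℂ) ^ (-s)) (polL l)) (zetaL l s)⁻¹ := by
  induction l with
  | nil => simp [polL_nil, zetaL]
  | cons k l ih =>
    have hk := one_lt_re_natMul (hl k List.mem_cons_self)
    have h1 : HasProd (fun p : Nat.Primes => 1 - ((p : ℂ) ^ (-s)) ^ k)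
        (riemannZeta ((k : ℂ) * s))⁻¹ := by
      refine ((riemannZeta_eulerProduct_hasProd hk).inv₀
        (riemannZeta_ne_zero_of_one_lt_re hk)).congr_fun fun p => ?_
      rw [inv_inv, ← mul_neg, cpow_nat_mul]
    have h2 := h1.mul (ih fun j hj => hl j (List.mem_cons_of_mem _ hj))
    rw [show (zetaL (k :: l) s)⁻¹ = (riemannZeta ((k : ℂ) * s))⁻¹ * (zetaL l s)⁻¹ by
      simp [zetaL, mul_comm]]
    exact h2.congr_fun fun p => by simp [polL_cons]

theorem exists_corr_bound {M : ℕ} (hB : ∀ k ∈ B, 0 < k)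
    (h : X ^ M ∣ W * polL A - polL B) {δ : ℝ} (hδ : 0 < δ) :
    ∃ C : ℝ, ∀ (p : Nat.Primes) (z : ℂ), δ ≤ z.re →
      ‖corr W A B p z - 1‖ ≤ C * ((p : ℕ) : ℝ) ^ (-((M : ℝ) * δ)) := by
  obtain ⟨R, hR⟩ := h
  have hr : (2 : ℝ) ^ (-δ) < 1 := Real.rpow_lt_one_of_one_lt_of_neg one_lt_two (neg_lt_zero.2 hδ)
  obtain ⟨C, hC⟩ := (isCompact_closedBall (0 : ℂ) ((2 : ℝ) ^ (-δ))).exists_bound_of_continuousOn
    (f := fun x => aeval x R / aeval x (polL B)) (R.continuous_aeval.continuousOn.div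
      (polL B).continuous_aeval.continuousOn fun x hx =>
        aeval_polL_ne_zero hB ((mem_closedBall_zero_iff.1 hx).trans_lt hr))
  refine ⟨C, fun p z hz => ?_⟩
  obtain ⟨x, hx⟩ : ∃ x, x = (p : ℂ) ^ (-z) := ⟨_, rfl⟩
  have hx1 : x ∈ Metric.closedBall (0 : ℂ) ((2 : ℝ) ^ (-δ)) :=
    mem_closedBall_zero_iff.2 (hx ▸ norm_prime_cpow_le p hδ.le hz)
  have hne := aeval_polL_ne_zero hB (x := x) ((mem_closedBall_zero_iff.1 hx1).trans_lt hr)
  have e : corr W A B p z - 1 = x ^ M * (aeval x R / aeval x (polL B)) := by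
    have h1 := congrArg (aeval x) hR
    simp only [map_sub, map_mul, map_pow, aeval_X] at h1
    rw [corr, ← hx, div_sub_one hne, h1, mul_div_assoc]
  rw [e, norm_mul, norm_pow, mul_comm C]
  refine mul_le_mul ?_ (hC x hx1) (norm_nonneg _) (by positivity)
  rw [hx, FA.PrimeZeta.norm_prime_cpow, ← Real.rpow_natCast, ← Real.rpow_mul (Nat.cast_nonneg _)]
  exact Real.rpow_le_rpow_of_exponent_le (Nat.one_le_cast.2 p.2.one_le) (by nlinarith)

theorem summable_corr {M : ℕ} (hB : ∀ k ∈ B, 0 < k) (h : X ^ M ∣ W * polL A - polL B)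
    (hs : 1 < (M : ℝ) * s.re) : Summable fun p : Nat.Primes => ‖corr W A B p s - 1‖ := by
  have h0 : 0 < s.re := pos_of_mul_pos_right (zero_lt_one.trans hs) (Nat.cast_nonneg M)
  obtain ⟨C, hC⟩ := exists_corr_bound hB h h0
  exact ((Nat.Primes.summable_rpow.2 (neg_lt_neg hs)).mul_left C).of_nonneg_of_le
    (fun _ => norm_nonneg _) fun p => hC p s le_rfl

theorem multipliable_corr {M : ℕ} (hB : ∀ k ∈ B, 0 < k) (h : X ^ M ∣ W * polL A - polL B)
    (hs : 1 < (M : ℝ) * s.re) : Multipliable fun p : Nat.Primes => corr W A B p s := by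
  simpa using multipliable_one_add_of_summable (summable_corr hB h hs)

theorem differentiableAt_cpow_neg (p : Nat.Primes) :
    DifferentiableAt ℂ (fun z : ℂ => (p : ℂ) ^ (-z)) s :=
  differentiableAt_id.neg.const_cpow (Or.inl (Nat.cast_ne_zero.2 p.2.ne_zero))

theorem analyticAt_tprod_corr {M : ℕ} (hB : ∀ k ∈ B, 0 < k) (h : X ^ M ∣ W * polL A - polL B)
    (hs : 1 < (M : ℝ) * s.re) :
    AnalyticAt ℂ (fun z => ∏' p : Nat.Primes, corr W A B p z) s := by
  have h0 : 0 < s.re := pos_of_mul_pos_right (zero_lt_one.trans hs) (Nat.cast_nonneg M)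
  have hM : (0 : ℝ) < M := pos_of_mul_pos_left (zero_lt_one.trans hs) h0.le
  obtain ⟨δ, hδ1, hδ2⟩ := exists_between ((div_lt_iff₀' hM).2 hs)
  have hδ : 0 < δ := (by positivity : (0 : ℝ) ≤ 1 / M).trans_lt hδ1
  have hU : IsOpen {z : ℂ | δ < z.re} := isOpen_lt continuous_const continuous_re
  obtain ⟨C, hC⟩ := exists_corr_bound hB h hδ
  have hd : ∀ p : Nat.Primes, DifferentiableOn ℂ (corr W A B p) {z : ℂ | δ < z.re} :=
    fun p z hz => by
      have hp : ∀ P : ℤ[X], DifferentiableAt ℂ (fun w : ℂ => aeval ((p : ℂ) ^ (-w)) P) z :=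
        fun P => DifferentiableAt.comp (g := fun x : ℂ => aeval x P) z P.differentiableAt_aeval
          (differentiableAt_cpow_neg p)
      exact (((hp W).mul (hp (polL A))).div (hp (polL B)) (aeval_polL_ne_zero hB
        (norm_prime_cpow_lt_one p (hδ.trans hz)))).differentiableWithinAt
  have hl := Summable.hasProdLocallyUniformlyOn_one_add (f := fun p z => corr W A B p z - 1) hU
    ((Nat.Primes.summable_rpow.2 (neg_lt_neg ((div_lt_iff₀' hM).1 hδ1))).mul_left C)
    (Eventually.of_forall fun p z hz => hC p z (le_of_lt hz))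
    fun p => ((hd p).sub (differentiableOn_const _)).continuousOn
  simp only [add_sub_cancel] at hl
  exact ((hasProdLocallyUniformlyOn_iff_tendstoLocallyUniformlyOn.1 hl).differentiableOn
    (Eventually.of_forall fun F => DifferentiableOn.fun_finsetProd fun p _ => hd p)
      hU).analyticAt (hU.mem_nhds hδ2)

theorem one_lt_of_lt_natMul {K : ℕ} (hs : 1 < ((K + 1 : ℕ) : ℝ) * s.re) : 0 < s.re :=
  pos_of_mul_pos_right (zero_lt_one.trans hs) (Nat.cast_nonneg _)

theorem stepFn_succ (hW : W.coeff 0 = 1) {K : ℕ} (hs : 1 < ((K + 1 : ℕ) : ℝ) * s.re) :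
    stepFn W (K + 1) s = stepFn W K s := by
  obtain ⟨n, n', e1, e2⟩ : ∃ n n',
      (splitLists W (K + 1)).1 = (splitLists W K).1 ++ List.replicate n (K + 1) ∧
      (splitLists W (K + 1)).2 = (splitLists W K).2 ++ List.replicate n' (K + 1) :=
    ⟨_, _, rfl, rfl⟩
  have ha : ∀ N, ∀ k ∈ List.replicate N (K + 1), 1 < (k : ℝ) * s.re := fun N k hk => by
    rwa [List.eq_of_mem_replicate hk]
  have hne : ∀ N, zetaL (List.replicate N (K + 1)) s ≠ 0 := fun N =>
    zetaL_ne_zero fun k hk => riemannZeta_ne_zero_of_one_lt_re (one_lt_re_natMul (ha N k hk))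
  have hB : ∀ k ∈ (splitLists W K).2, 0 < k := fun k hk => (mem_splitLists (.inr hk)).1
  have h0 := (multipliable_corr hB (X_pow_dvd_splitLists hW K) hs).hasProd
  have h1 : HasProd (fun p : Nat.Primes => corr W (splitLists W (K + 1)).1
      (splitLists W (K + 1)).2 p s)
      ((∏' p : Nat.Primes, corr W (splitLists W K).1 (splitLists W K).2 p s) *
        ((zetaL (List.replicate n (K + 1)) s)⁻¹ * zetaL (List.replicate n' (K + 1)) s)) := by
    have hb' := (hasProd_polL (ha n')).inv₀ (inv_ne_zero (hne n'))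
    rw [inv_inv] at hb'
    refine (h0.mul ((hasProd_polL (ha n)).mul hb')).congr_fun fun p => ?_
    simp only [corr, e1, e2, polL_append, map_mul, div_eq_mul_inv, mul_inv]
    ring
  rw [stepFn, stepFn, h1.tprod_eq, e1, e2, zetaL_append, zetaL_append]
  field_simp [hne n, hne n']

theorem contW_eq_stepFn (hW : W.coeff 0 = 1) {K : ℕ} (hs : 1 < ((K + 1 : ℕ) : ℝ) * s.re) :
    contW W s = stepFn W K s := by
  have h0 := one_lt_of_lt_natMul hs
  have hle : ⌊1 / s.re⌋₊ ≤ K :=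
    Nat.lt_succ_iff.1 ((Nat.floor_lt (by positivity)).2 ((div_lt_iff₀ h0).2 hs))
  refine Nat.le_induction rfl (fun n hn ih => ?_) K hle
  rw [stepFn_succ hW, ih]
  refine ((div_lt_iff₀ h0).1 (Nat.lt_floor_add_one _)).trans_le ?_
  gcongr
  exact_mod_cast Nat.add_le_add_right hn 1

theorem eventuallyEq_stepFn (hW : W.coeff 0 = 1) {K : ℕ} (hs : 1 < ((K + 1 : ℕ) : ℝ) * s.re) :
    contW W =ᶠ[𝓝 s] stepFn W K := by
  filter_upwards [(isOpen_lt continuous_const (continuous_re.const_mul _)).mem_nhds hs]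
    with z hz using contW_eq_stepFn hW hz

theorem contW_eq_eulerW (hW : W.coeff 0 = 1) (hs : 1 < s.re) : contW W s = eulerW W s := by
  rw [contW_eq_stepFn hW (K := 0) (by simpa using hs)]
  simp [stepFn, splitLists, corr, polL_nil, zetaL, eulerW]

theorem multipliable_eulerW (hW : W.coeff 0 = 1) (hs : 1 < s.re) :
    Multipliable fun p : Nat.Primes => aeval ((p : ℂ) ^ (-s)) W := by
  have h : X ^ 1 ∣ W * polL [] - polL [] := by simp [polL_nil, X_dvd_iff, hW]
  have := multipliable_corr (s := s) (List.forall_mem_nil _) h (by simpa using hs)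
  simpa [corr, polL_nil] using this

theorem meromorphicAt_zetaL (l : List ℕ) (s : ℂ) : MeromorphicAt (zetaL l) s := by
  induction l with
  | nil => exact MeromorphicAt.const (1 : ℂ) s
  | cons k l ih =>
    exact ((FA.PrimeZeta.meromorphicAt_riemannZeta _).comp_analyticAt
      (analyticAt_const.mul analyticAt_id)).mul ih

theorem analyticAt_zetaL {l : List ℕ} (hl : ∀ k ∈ l, (k : ℂ) * s ≠ 1) :
    AnalyticAt ℂ (zetaL l) s := by
  induction l with
  | nil => exact analyticAt_const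
  | cons k l ih =>
    exact ((analyticOn_riemannZeta _ (hl k List.mem_cons_self)).comp_of_eq
      (analyticAt_const.mul analyticAt_id) rfl).mul
        (ih fun j hj => hl j (List.mem_cons_of_mem _ hj))

/-- **The continuation is meromorphic on `0 < re s`.** -/
theorem meromorphicOn_contW (hW : W.coeff 0 = 1) : MeromorphicOn (contW W) {s | 0 < s.re} := by
  intro s hs
  have h : 1 < ((⌊1 / s.re⌋₊ + 1 : ℕ) : ℝ) * s.re := by
    push_cast
    exact (div_lt_iff₀ hs).1 (Nat.lt_floor_add_one _)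
  refine MeromorphicAt.congr ?_ ((eventuallyEq_stepFn hW h).symm.filter_mono nhdsWithin_le_nhds)
  exact (analyticAt_tprod_corr (fun k hk => (mem_splitLists (.inr hk)).1)
    (X_pow_dvd_splitLists hW _) h).meromorphicAt.mul
      ((meromorphicAt_zetaL _ s).div (meromorphicAt_zetaL _ s))

/-- A zero of one factor is a zero of the continuation, away from the `ζ (k s)`. -/
theorem analyticAt_and_eq_zero (hW : W.coeff 0 = 1) {K : ℕ}
    (hs : 1 < ((K + 1 : ℕ) : ℝ) * s.re)
    (hz : ∀ k : ℕ, 0 < k → k ≤ K → (k : ℂ) * s ≠ 1 ∧ riemannZeta ((k : ℂ) * s) ≠ 0)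
    {p : Nat.Primes} (hp : aeval ((p : ℂ) ^ (-s)) W = 0) :
    AnalyticAt ℂ (contW W) s ∧ contW W s = 0 := by
  have hd := X_pow_dvd_splitLists hW K
  have hB : ∀ k ∈ (splitLists W K).2, 0 < k := fun k hk => (mem_splitLists (.inr hk)).1
  refine ⟨AnalyticAt.congr ?_ (eventuallyEq_stepFn hW hs).symm, ?_⟩
  · exact (analyticAt_tprod_corr hB hd hs).mul ((analyticAt_zetaL fun k hk =>
      (hz k (mem_splitLists (.inl hk)).1 (mem_splitLists (.inl hk)).2).1).div
        (analyticAt_zetaL fun k hk =>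
          (hz k (mem_splitLists (.inr hk)).1 (mem_splitLists (.inr hk)).2).1)
        (zetaL_ne_zero fun k hk =>
          (hz k (mem_splitLists (.inr hk)).1 (mem_splitLists (.inr hk)).2).2))
  · rw [contW_eq_stepFn hW hs, stepFn, (hasProd_zero_of_exists_eq_zero ⟨p, ?_⟩).tprod_eq, zero_mul]
    simp [corr, hp]

/-- **The continuation vanishes identically nowhere.** -/
theorem order_contW_ne_top (hW : W.coeff 0 = 1) (hs : 0 < s.re) :
    meromorphicOrderAt (contW W) s ≠ ⊤ := by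
  have hev : ∀ᶠ x in 𝓝 (0 : ℂ), aeval x W ≠ 0 := W.continuous_aeval.continuousAt.eventually_ne
    (by simp [← coeff_zero_eq_aeval_zero', hW])
  obtain ⟨ρ, hρ, hball⟩ := Metric.eventually_nhds_iff.1 hev
  obtain ⟨σ, hσ1, hσ⟩ : ∃ σ : ℝ, 2 ≤ σ ∧ (2 : ℝ) ^ (-σ) < ρ :=
    ((eventually_ge_atTop (2 : ℝ)).and ((tendsto_rpow_atBot_of_base_gt_one 2 one_lt_two).comp
      tendsto_neg_atTop_atBot |>.eventually_lt_const hρ)).exists
  have hs1 : 1 < ((0 + 1 : ℕ) : ℝ) * (σ : ℂ).re := by simp; linarith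
  have hne : contW W σ ≠ 0 := by
    rw [contW_eq_stepFn hW hs1]
    have hd := X_pow_dvd_splitLists hW 0
    have h0 : ∏' p : Nat.Primes, (1 + (corr W [] [] p σ - 1)) ≠ 0 := by
      refine tprod_one_add_ne_zero_of_summable (fun p => ?_)
        (summable_corr (M := 0 + 1) (List.forall_mem_nil _) (by simpa [splitLists] using hd) hs1)
      have := hball (y := (p : ℂ) ^ (-(σ : ℂ))) (by
        rw [dist_zero_right]
        exact (norm_prime_cpow_le p (δ := σ) (by linarith) (by simp)).trans_lt hσ)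
      simpa [corr, polL_nil] using this
    simpa [stepFn, splitLists, zetaL] using h0
  refine (meromorphicOn_contW hW).meromorphicOrderAt_ne_top_of_isPreconnected
    (convex_halfSpace_re_gt 0).isPreconnected (x := (σ : ℂ))
    (show (0 : ℝ) < (σ : ℂ).re by simp; linarith) hs ?_
  have ha : AnalyticAt ℂ (contW W) σ := (AnalyticAt.congr
    ((analyticAt_tprod_corr (fun k hk => (mem_splitLists (.inr hk)).1)
      (X_pow_dvd_splitLists hW 0) hs1).mul
        ((analyticAt_zetaL (by simp [splitLists])).div (analyticAt_zetaL (by simp [splitLists]))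
          (by simp [splitLists, zetaL]))) (eventuallyEq_stepFn hW hs1).symm)
  rw [meromorphicOrderAt_ne_top_iff_eventually_ne_zero ha.meromorphicAt]
  exact (ha.continuousAt.eventually_ne hne).filter_mono nhdsWithin_le_nhds

end FA.Estermann

end
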