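import Mathlib

/-!
# Splitting an integer polynomial into factors `1 - X ^ k`

For `W` with `W 0 = 1` and every `K` there are lists `A`, `B` of `k ≤ K` with
`X ^ (K + 1) ∣ W ∏_A (1 - X ^ k) - ∏_B (1 - X ^ k)`; the identity is exact when all the roots
of `W` are roots of unity, and otherwise some root has absolute value less than `1`.
-/

set_option autoImplicit false

noncomputable section

open Polynomial

namespace FA.Estermann

/-- `∏ (1 - X ^ k)` over a list. -/
def polL (l : List ℕ) : ℤ[X] := (l.map fun k => 1 - X ^ k).prod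

theorem polL_nil : polL [] = 1 := rfl

theorem polL_cons (k : ℕ) (l : List ℕ) : polL (k :: l) = (1 - X ^ k) * polL l := by simp [polL]

theorem polL_append (l l' : List ℕ) : polL (l ++ l') = polL l * polL l' := by simp [polL]

theorem polL_replicate (n k : ℕ) : polL (List.replicate n k) = (1 - X ^ k) ^ n := by simp [polL]

theorem coeff_zero_polL {l : List ℕ} (hl : ∀ k ∈ l, 0 < k) : (polL l).coeff 0 = 1 := by
  induction l with
  | nil => simp [polL_nil]
  | cons k l ih =>
    have hk : 0 < k := hl k List.mem_cons_self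
    rw [polL_cons, mul_coeff_zero, ih fun j hj => hl j (List.mem_cons_of_mem _ hj)]
    simp [hk.ne]

theorem aeval_polL_ne_zero {l : List ℕ} (hl : ∀ k ∈ l, 0 < k) {x : ℂ} (hx : ‖x‖ < 1) :
    aeval x (polL l) ≠ 0 := by
  induction l with
  | nil => simp [polL_nil]
  | cons k l ih =>
    rw [polL_cons, map_mul]
    refine mul_ne_zero (fun h => ?_) (ih fun j hj => hl j (List.mem_cons_of_mem _ hj))
    simp only [map_sub, map_one, map_pow, aeval_X, sub_eq_zero] at h
    have := pow_lt_one₀ (norm_nonneg x) hx (hl k List.mem_cons_self).ne'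
    rw [← norm_pow, ← h, norm_one] at this
    exact this.false

/-- The lists of the exponents up to `K`. -/
def splitLists (W : ℤ[X]) : ℕ → List ℕ × List ℕ
  | 0 => ([], [])
  | K + 1 =>
    ((splitLists W K).1 ++ List.replicate
        ((W * polL (splitLists W K).1 - polL (splitLists W K).2).coeff (K + 1)).toNat (K + 1),
      (splitLists W K).2 ++ List.replicate
        (-(W * polL (splitLists W K).1 - polL (splitLists W K).2).coeff (K + 1)).toNat (K + 1))

theorem mem_splitLists {W : ℤ[X]} {K k : ℕ}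
    (h : k ∈ (splitLists W K).1 ∨ k ∈ (splitLists W K).2) : 0 < k ∧ k ≤ K := by
  induction K with
  | zero => simp [splitLists] at h
  | succ K ih =>
    have hrep : ∀ n, k ∈ List.replicate n (K + 1) → 0 < k ∧ k ≤ K + 1 := fun n hn => by
      rw [List.eq_of_mem_replicate hn]
      omega
    rcases h with h | h <;>
      · simp only [splitLists, List.mem_append] at h
        rcases h with h | h
        · obtain ⟨h1, h2⟩ := ih (by tauto)
          omega
        · exact hrep _ h

theorem exists_one_sub_pow (Y : ℤ[X]) (n : ℕ) :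
    ∃ r, (1 - Y) ^ n = 1 - (n : ℤ[X]) * Y + Y ^ 2 * r := by
  induction n with
  | zero => exact ⟨0, by simp⟩
  | succ n ih =>
    obtain ⟨r, hr⟩ := ih
    refine ⟨(n : ℤ[X]) + r * (1 - Y), ?_⟩
    rw [pow_succ, hr]
    push_cast
    ring

theorem X_pow_dvd_splitLists {W : ℤ[X]} (hW : W.coeff 0 = 1) (K : ℕ) :
    X ^ (K + 1) ∣ W * polL (splitLists W K).1 - polL (splitLists W K).2 := by
  induction K with
  | zero => simp [splitLists, polL_nil, X_dvd_iff, hW]
  | succ K ih =>
    obtain ⟨R, hR⟩ := ih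
    obtain ⟨c, hc⟩ : ∃ c, c = R.coeff 0 := ⟨_, rfl⟩
    have hcoef : (W * polL (splitLists W K).1 - polL (splitLists W K).2).coeff (K + 1) = c := by
      rw [hR, hc]
      simpa using coeff_X_pow_mul R (K + 1) 0
    obtain ⟨r₁, h1⟩ := exists_one_sub_pow (X ^ (K + 1)) c.toNat
    obtain ⟨r₂, h2⟩ := exists_one_sub_pow (X ^ (K + 1)) (-c).toNat
    obtain ⟨P, hP⟩ : ∃ P, P = W * polL (splitLists W K).1 := ⟨_, rfl⟩
    obtain ⟨U, hU⟩ : ∃ U, U = polL (splitLists W K).2 := ⟨_, rfl⟩
    rw [← hP, ← hU] at hR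
    have e : W * polL (splitLists W (K + 1)).1 - polL (splitLists W (K + 1)).2 =
        X ^ (K + 1) * (R - (c.toNat : ℤ[X]) * P + ((-c).toNat : ℤ[X]) * U +
          X ^ (K + 1) * (P * r₁ - U * r₂)) := by
      simp only [splitLists, hcoef, polL_append, polL_replicate, ← mul_assoc]
      rw [← hP, ← hU, h1, h2]
      linear_combination hR
    rw [e, pow_succ X (K + 1)]
    refine mul_dvd_mul_left _ (X_dvd_iff.2 ?_)
    have hP0 : P.coeff 0 = 1 := by
      rw [hP, mul_coeff_zero, hW, coeff_zero_polL fun k hk => (mem_splitLists (.inl hk)).1, one_mul]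
    have hU0 : U.coeff 0 = 1 := by
      rw [hU, coeff_zero_polL fun k hk => (mem_splitLists (.inr hk)).1]
    simp only [coeff_add, coeff_sub, mul_coeff_zero, coeff_natCast_ite, coeff_X_pow, if_true, hP0,
      hU0, (Nat.succ_ne_zero K).symm, if_false, zero_mul, add_zero, mul_one, ← hc]
    omega

/-- `d W ∏_A (1 - X ^ k) = c ∏_B (1 - X ^ k)`. -/
def CycSplit (W : ℤ[X]) : Prop :=
  ∃ A B : List ℕ, ∃ c d : ℤ, c ≠ 0 ∧ d ≠ 0 ∧ (∀ k ∈ A, 0 < k) ∧ (∀ k ∈ B, 0 < k) ∧
    C d * (W * polL A) = C c * polL B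

theorem cycSplit_const {c : ℤ} (hc : c ≠ 0) : CycSplit (C c) :=
  ⟨[], [], c, 1, hc, one_ne_zero, by simp, by simp, by simp⟩

theorem CycSplit.mul {U V : ℤ[X]} (hU : CycSplit U) (hV : CycSplit V) : CycSplit (U * V) := by
  obtain ⟨A, B, c, d, hc, hd, hA, hB, e⟩ := hU
  obtain ⟨A', B', c', d', hc', hd', hA', hB', e'⟩ := hV
  refine ⟨A ++ A', B ++ B', c * c', d * d', mul_ne_zero hc hc', mul_ne_zero hd hd',
    fun k hk => (List.mem_append.1 hk).elim (hA k) (hA' k),
    fun k hk => (List.mem_append.1 hk).elim (hB k) (hB' k), ?_⟩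
  rw [polL_append, polL_append, C_mul, C_mul]
  linear_combination (C d' * (V * polL A')) * e + (C c * polL B) * e'

theorem cycSplit_cyclotomic {m : ℕ} (hm : 0 < m) : CycSplit (cyclotomic m ℤ) := by
  induction m using Nat.strong_induction_on with
  | _ m ih =>
    have hU : CycSplit (∏ i ∈ m.properDivisors, cyclotomic i ℤ) :=
      Finset.prod_induction _ CycSplit (fun U V => CycSplit.mul) (cycSplit_const one_ne_zero)
        fun i hi => ih i (Nat.mem_properDivisors.1 hi).2 (Nat.pos_of_mem_properDivisors hi)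
    obtain ⟨A, B, c, d, hc, hd, hA, hB, e⟩ := hU
    have hprod := prod_cyclotomic_eq_X_pow_sub_one hm ℤ
    rw [← Nat.cons_self_properDivisors hm.ne', Finset.prod_cons] at hprod
    refine ⟨B, m :: A, -d, c, neg_ne_zero.2 hd, hc, hB,
      List.forall_mem_cons.2 ⟨hm, hA⟩, ?_⟩
    rw [polL_cons, C_neg]
    linear_combination (-(cyclotomic m ℤ)) * e + C d * polL A * hprod

theorem cycSplit_of_roots {W : ℤ[X]} (h0 : W ≠ 0)
    (hu : ∀ z : ℂ, aeval z W = 0 → ∃ n, 0 < n ∧ z ^ n = 1) : CycSplit W := by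
  induction hd : W.natDegree using Nat.strong_induction_on generalizing W with
  | _ D ih =>
    rcases Nat.eq_zero_or_pos W.natDegree with h | h
    · rw [eq_C_of_natDegree_eq_zero h] at h0 ⊢
      exact cycSplit_const fun e => h0 (by rw [e, C_0])
    obtain ⟨z, hz⟩ : ∃ z : ℂ, aeval z W = 0 := IsAlgClosed.exists_aeval_eq_zero _ W (by
      rw [degree_eq_natDegree h0]
      exact_mod_cast h.ne')
    obtain ⟨n, hn, hzn⟩ := hu z hz
    obtain ⟨k, hk, hprim⟩ := IsPrimitiveRoot.exists_pos hzn hn.ne'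
    obtain ⟨V, hV⟩ : cyclotomic k ℤ ∣ W := by
      rw [cyclotomic_eq_minpoly hprim hk]
      exact minpoly.isIntegrallyClosed_dvd (hprim.isIntegral hk) hz
    have hV0 : V ≠ 0 := fun e => h0 (by rw [hV, e, mul_zero])
    rw [hV]
    refine (cycSplit_cyclotomic hk).mul (ih V.natDegree ?_ hV0 (fun w hw => hu w ?_) rfl)
    · rw [← hd, hV, natDegree_mul (cyclotomic_ne_zero k ℤ) hV0, natDegree_cyclotomic]
      exact Nat.lt_add_of_pos_left (Nat.totient_pos.2 hk)
    · rw [hV, map_mul, hw, mul_zero]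

/-- **The identity is exact** when all the roots are roots of unity. -/
theorem exists_split_of_roots {W : ℤ[X]} (hW : W.coeff 0 = 1)
    (hu : ∀ z : ℂ, aeval z W = 0 → ∃ n, 0 < n ∧ z ^ n = 1) :
    ∃ A B : List ℕ, (∀ k ∈ A, 0 < k) ∧ (∀ k ∈ B, 0 < k) ∧ W * polL A = polL B := by
  obtain ⟨A, B, c, d, hc, hd, hA, hB, e⟩ := cycSplit_of_roots (fun e => by simp [e] at hW) hu
  have h := congrArg (coeff · 0) e
  simp only [mul_coeff_zero, coeff_C_zero, hW, coeff_zero_polL hA, coeff_zero_polL hB,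
    mul_one] at h
  subst h
  exact ⟨A, B, hA, hB, mul_left_cancel₀ (fun e => hd (C_eq_zero.1 e)) e⟩

/-- **Kronecker**: a root that is no root of unity forces one inside the unit circle. -/
theorem exists_root_norm_lt_one {W : ℤ[X]} (hW : W.coeff 0 = 1)
    (hu : ∃ z : ℂ, aeval z W = 0 ∧ ∀ n, 0 < n → z ^ n ≠ 1) :
    ∃ z : ℂ, aeval z W = 0 ∧ z ≠ 0 ∧ ‖z‖ < 1 := by
  have hne : ∀ z : ℂ, aeval z W = 0 → z ≠ 0 := fun z hz e => by
    rw [e, ← coeff_zero_eq_aeval_zero', hW] at hz
    simp at hz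
  by_contra hcon
  obtain ⟨z, hz, hzu⟩ := hu
  have htr : W.reverse.leadingCoeff = 1 := by
    rw [reverse_leadingCoeff, trailingCoeff,
      natTrailingDegree_eq_zero.2 (Or.inr (by rw [hW]; exact one_ne_zero)), hW]
  have hrev : ∀ w : ℂ, w ≠ 0 → (aeval w W.reverse = 0 ↔ aeval w⁻¹ W = 0) := fun w hw => by
    let _ : Invertible w⁻¹ := invertibleOfNonzero (inv_ne_zero hw)
    have := eval₂_reverse_eq_zero_iff (algebraMap ℤ ℂ) w⁻¹ W
    rwa [invOf_eq_inv, inv_inv, ← aeval_def, ← aeval_def] at this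
  have hP0 : W.reverse.map (Int.castRingHom ℂ) ≠ 0 :=
    (Monic.map _ htr).ne_zero
  have hle : ∀ w ∈ W.reverse.aroots ℂ, ‖w‖ ≤ 1 := fun w hw => by
    rcases eq_or_ne w 0 with rfl | h
    · simp
    refine le_of_not_gt fun hlt => hcon ⟨w⁻¹, (hrev w h).1 (mem_aroots.1 hw).2, inv_ne_zero h, ?_⟩
    rw [norm_inv]
    exact inv_lt_one_of_one_lt₀ hlt
  have hM : (W.reverse.map (Int.castRingHom ℂ)).mahlerMeasure = 1 := by
    rw [mahlerMeasure_eq_leadingCoeff_mul_prod_roots,
      leadingCoeff_map_of_injective (Int.castRingHom ℂ).injective_int, htr, map_one, norm_one,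
      one_mul]
    refine Multiset.prod_eq_one fun r hr => ?_
    obtain ⟨w, hw, rfl⟩ := Multiset.mem_map.1 hr
    exact max_eq_left (hle w hw)
  have hmem : z⁻¹ ∈ W.reverse.aroots ℂ :=
    mem_aroots.2 ⟨fun e => by simp [e] at htr,
      (hrev _ (inv_ne_zero (hne z hz))).2 (by rwa [inv_inv])⟩
  obtain ⟨n, hn, h1⟩ := pow_eq_one_of_mahlerMeasure_eq_one hM (inv_ne_zero (hne z hz)) hmem
  rw [inv_pow, inv_eq_one] at h1
  exact hzu n hn h1

end FA.Estermann

end
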