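import Fermat.Agent.EstermannBoundary.Product
import Fermat.Agent.PrimeZeta.Zeros

/-!
# Zeros of the continuation accumulate at every point of the imaginary axis

With a root of absolute value `exp (-c)`, every prime `p ≤ n` gives a zero of real part
`c / log p` at a prescribed height, and only `O ((log n) ^ 3)` of them can meet a zero or the pole
of some `ζ (k s)` with `k ≤ (log n) / c + 1`.
-/

set_option autoImplicit false

noncomputable section

open Polynomial Filter Topology Real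
open Complex (I)
open FA.RiemannMangoldt (zeroCount zetaZeros finite_zetaZeros zeroCount_mono)
open scoped ComplexConjugate

namespace FA.Estermann

theorem exists_zeroCount_le_sq :
    ∃ T₁ : ℝ, 0 < T₁ ∧ ∀ T : ℝ, 0 ≤ T → (zeroCount T : ℝ) ≤ (T + T₁) ^ 2 := by
  obtain ⟨T₀, hT⟩ := eventually_atTop.1
    ((FA.RiemannMangoldt.Summary.zeroCount_asymptotic.eventually_lt_const
      (show 1 / (2 * π) < 1 by
        rw [div_lt_one (by positivity)]
        linarith [Real.pi_gt_three])).and (eventually_gt_atTop 1))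
  refine ⟨max T₀ 2, by positivity, fun T h0 => ?_⟩
  obtain ⟨h, hT1⟩ := hT (T + max T₀ 2) (by linarith [le_max_left T₀ 2])
  have hl := Real.log_pos hT1
  rw [div_lt_one (by positivity)] at h
  calc (zeroCount T : ℝ) ≤ zeroCount (T + max T₀ 2) :=
        Nat.cast_le.2 (zeroCount_mono (le_add_of_nonneg_right (by positivity)))
    _ ≤ (T + max T₀ 2) * Real.log (T + max T₀ 2) := h.le
    _ ≤ _ := by
        rw [sq]
        exact mul_le_mul_of_nonneg_left
          (by linarith [Real.log_le_sub_one_of_pos (show 0 < T + max T₀ 2 by linarith)])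
          (by linarith)

theorem card_zetaZeros_le (T : ℝ) : (finite_zetaZeros T).toFinset.card ≤ zeroCount T := by
  rw [FA.RiemannMangoldt.Summary.zeroCount_spec, Finset.card_eq_sum_ones]
  refine Finset.sum_le_sum fun ρ hρ => ?_
  rw [Set.Finite.mem_toFinset, FA.RiemannMangoldt.Summary.zetaZeros_spec] at hρ
  exact FA.PrimeZeta.zetaOrd_pos (fun e => by simp [e] at hρ) hρ.1

/-- The primes outnumber the bad points. -/
theorem eventually_count_lt {c a : ℝ} (hc : 0 < c) (ha : 0 ≤ a) (p₀ : ℕ) :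
    ∀ᶠ n : ℕ in atTop, ⌈Real.log n / c⌉₊ * (2 * zeroCount (⌈Real.log n / c⌉₊ * a)) + p₀ + 1 <
      Nat.primeCounting n := by
  obtain ⟨T₁, hT₁, hN⟩ := exists_zeroCount_le_sq
  obtain ⟨M, hM⟩ : ∃ M, M = 8 * (2 * (1 / c + 1) * ((1 / c + 1) * a + T₁) ^ 2 + p₀ + 1) :=
    ⟨_, rfl⟩
  have hM0 : 0 < M := by rw [hM]; positivity
  filter_upwards [eventually_ge_atTop 3,
    tendsto_natCast_atTop_atTop.eventually ((Real.isLittleO_pow_log_id_atTop (n := 4)).bound
      (show 0 < 1 / (2 * (M + 2)) by positivity))] with n hn h4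
  have hn0 : (3 : ℝ) ≤ n := by exact_mod_cast hn
  have hl1 : 1 ≤ Real.log n := by
    rw [Real.le_log_iff_exp_le (by linarith)]
    linarith [Real.exp_one_lt_d9]
  rw [id_eq, Real.norm_eq_abs, abs_of_nonneg (by positivity), Real.norm_of_nonneg (by linarith),
    div_mul_eq_mul_div, one_mul, le_div_iff₀ (by positivity)] at h4
  obtain ⟨L, hL⟩ : ∃ L, L = Real.log n := ⟨_, rfl⟩
  rw [← hL] at h4 hl1 ⊢
  obtain ⟨K, hK⟩ : ∃ K, K = ⌈L / c⌉₊ := ⟨_, rfl⟩
  rw [← hK]
  have hKle : (K : ℝ) ≤ (1 / c + 1) * (L + 1) := by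
    have h1 := (Nat.ceil_lt_add_one (show 0 ≤ L / c by positivity)).le
    rw [← hK] at h1
    refine h1.trans (le_of_sub_nonneg ?_)
    have : (1 / c + 1) * (L + 1) - (L / c + 1) = 1 / c + L := by ring
    rw [this]
    positivity
  have hbad : (K : ℝ) * (2 * zeroCount (K * a)) + p₀ + 1 ≤ M * L ^ 3 := by
    have h1 : (zeroCount (K * a) : ℝ) ≤ ((1 / c + 1) * a + T₁) ^ 2 * (L + 1) ^ 2 := by
      refine (hN _ (by positivity)).trans ?_
      rw [← mul_pow]
      refine pow_le_pow_left₀ (by positivity) ?_ 2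
      calc (K : ℝ) * a + T₁ ≤ (1 / c + 1) * (L + 1) * a + T₁ * (L + 1) :=
            add_le_add (mul_le_mul_of_nonneg_right hKle ha)
              (le_mul_of_one_le_right hT₁.le (by linarith))
        _ = _ := by ring
    have h2 : (L + 1) ^ 3 ≤ 8 * L ^ 3 := by
      rw [show 8 * L ^ 3 = (2 * L) ^ 3 by ring]
      exact pow_le_pow_left₀ (by linarith) (by linarith) 3
    calc (K : ℝ) * (2 * zeroCount (K * a)) + p₀ + 1
        ≤ (1 / c + 1) * (L + 1) * (2 * (((1 / c + 1) * a + T₁) ^ 2 * (L + 1) ^ 2)) +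
            ((p₀ : ℝ) + 1) * (L + 1) ^ 3 := by
          rw [add_assoc]
          exact add_le_add (mul_le_mul hKle (by linarith) (by positivity) (by positivity))
            (le_mul_of_one_le_right (by positivity) (one_le_pow₀ (by linarith)))
      _ = M / 8 * (L + 1) ^ 3 := by rw [hM]; ring
      _ ≤ M / 8 * (8 * L ^ 3) := mul_le_mul_of_nonneg_left h2 (by positivity)
      _ = _ := by ring
  have hlog : Real.log ((n : ℝ) + 1) ≤ 2 * L ^ 4 := by
    refine (Real.log_le_log (by linarith) (show (n : ℝ) + 1 ≤ (n : ℝ) ^ 2 by nlinarith)).trans ?_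
    rw [Real.log_pow, ← hL, Nat.cast_ofNat]
    exact mul_le_mul_of_nonneg_left (le_self_pow₀ hl1 (by norm_num)) two_pos.le
  have hpi := Chebyshev.pi_ge n
  rw [← hL, div_le_iff₀ (by linarith)] at hpi
  have key : ((K : ℝ) * (2 * zeroCount (K * a)) + p₀ + 1) * L <
      (Nat.primeCounting n : ℝ) * L := by
    have h5 := mul_le_mul_of_nonneg_right hbad (show 0 ≤ L by linarith)
    nlinarith [Real.log_two_gt_d9]
  exact_mod_cast lt_of_mul_lt_mul_right key (by linarith)

/-- **Zeros accumulate at every point of the axis.** -/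
theorem exists_zero_near {W : ℤ[X]} (hW : W.coeff 0 = 1) {z : ℂ} (hz : aeval z W = 0)
    (hz0 : z ≠ 0) (hz1 : ‖z‖ < 1) (t : ℝ) {ε : ℝ} (hε : 0 < ε) :
    ∃ s : ℂ, 0 < s.re ∧ dist s (t * I) < ε ∧ AnalyticAt ℂ (contW W) s ∧ contW W s = 0 := by
  obtain ⟨c, hc⟩ : ∃ c, c = -Real.log ‖z‖ := ⟨_, rfl⟩
  have hc0 : 0 < c := hc ▸ neg_pos.2 (Real.log_neg (norm_pos_iff.2 hz0) hz1)
  obtain ⟨p₀, hp₀⟩ := eventually_atTop.1 ((Real.tendsto_log_atTop.comp
    tendsto_natCast_atTop_atTop).eventually_gt_atTop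
      (max (max (2 * c / ε) (4 * π / ε)) (4 * π)))
  obtain ⟨n, hn⟩ := (eventually_count_lt hc0 (by positivity : 0 ≤ |t| + 1) p₀).exists
  obtain ⟨K, hK⟩ : ∃ K, K = ⌈Real.log n / c⌉₊ := ⟨_, rfl⟩
  rw [← hK] at hn
  -- the zero from the prime `p`
  obtain ⟨g, hg⟩ : ∃ g : ℕ → ℂ, g = fun p : ℕ =>
      (c / Real.log p : ℝ) + ((((⌊((if 0 ≤ t then t else t - 2 * π / Real.log p) * Real.log p +
        Complex.arg z) / (2 * π)⌋ : ℤ) + 1 : ℝ) * (2 * π) - Complex.arg z) / Real.log p : ℝ) * I :=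
    ⟨_, rfl⟩
  have key : ∀ p : ℕ, p.Prime → p₀ ≤ p → 0 < (g p).re ∧ (g p).re * Real.log p = c ∧
      dist (g p) (t * I) < ε ∧ (g p).im ≠ 0 ∧ |(g p).im| ≤ |t| + 1 ∧
      (p : ℂ) ^ (-g p) = z := fun p hp hp0 => by
    have hL := hp₀ p hp0
    simp only [Function.comp_apply, max_lt_iff] at hL
    obtain ⟨⟨hL1, hL2⟩, hL3⟩ := hL
    obtain ⟨L, hLd⟩ : ∃ L, L = Real.log p := ⟨_, rfl⟩
    obtain ⟨b, hb⟩ : ∃ b, b = if 0 ≤ t then t else t - 2 * π / L := ⟨_, rfl⟩
    obtain ⟨l, hl⟩ : ∃ l : ℤ, l = ⌊(b * L + Complex.arg z) / (2 * π)⌋ := ⟨_, rfl⟩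
    have hgp : g p = (c / L : ℝ) + ((((l : ℝ) + 1) * (2 * π) - Complex.arg z) / L : ℝ) * I := by
      rw [hg, hl, hb, hLd]
    rw [← hLd] at hL1 hL2 hL3 ⊢
    have hL0 : 0 < L := lt_trans (by positivity) hL3
    have hre : (g p).re = c / L := by
      simp only [hgp, Complex.add_re, Complex.re_ofReal_mul, Complex.ofReal_re, Complex.I_re,
        mul_zero, add_zero]
    have him : (g p).im = (((l : ℝ) + 1) * (2 * π) - Complex.arg z) / L := by
      simp only [hgp, Complex.add_im, Complex.im_ofReal_mul, Complex.ofReal_im, Complex.I_im,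
        mul_one, zero_add]
    have h1 : b < (g p).im := by
      rw [him, lt_div_iff₀ hL0]
      have := Int.lt_floor_add_one ((b * L + Complex.arg z) / (2 * π))
      rw [← hl, div_lt_iff₀ (by positivity)] at this
      linarith
    have h2 : (g p).im ≤ b + 2 * π / L := by
      rw [him, div_le_iff₀ hL0, add_mul b, div_mul_cancel₀ _ hL0.ne']
      have := Int.floor_le ((b * L + Complex.arg z) / (2 * π))
      rw [← hl, le_div_iff₀ (by positivity)] at this
      linarith
    have hw1 : 2 * π / L ≤ 1 / 2 := by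
      rw [div_le_iff₀ hL0]
      linarith
    have hw2 : 2 * π / L < ε / 2 := by
      rw [div_lt_iff₀ hL0]
      rw [div_lt_iff₀ hε] at hL2
      linarith
    have hcε : c / L < ε / 2 := by
      rw [div_lt_iff₀ hL0]
      rw [div_lt_iff₀ hε] at hL1
      linarith
    have hw0 : 0 < 2 * π / L := by positivity
    have habs : |(g p).im - t| ≤ 2 * π / L := by
      rw [abs_le]
      split_ifs at hb <;> constructor <;> linarith
    refine ⟨hre ▸ div_pos hc0 hL0, by rw [hre, div_mul_cancel₀ _ hL0.ne'], ?_, ?_, ?_, ?_⟩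
    · rw [dist_eq_norm]
      refine (Complex.norm_le_abs_re_add_abs_im _).trans_lt ?_
      simp only [Complex.sub_re, Complex.sub_im, Complex.re_ofReal_mul, Complex.im_ofReal_mul,
        Complex.I_re, Complex.I_im, mul_zero, sub_zero, mul_one, hre, abs_of_pos (div_pos hc0 hL0)]
      linarith
    · split_ifs at hb with h
      · exact (show 0 < (g p).im by linarith).ne'
      · exact (show (g p).im < 0 by linarith).ne
    · linarith [abs_sub_abs_le_abs_sub (g p).im t]
    · have hcz : Complex.log z = (-c : ℝ) + (Complex.arg z : ℝ) * I := by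
        rw [Complex.log, hc, neg_neg]
      rw [Complex.cpow_def_of_ne_zero (Nat.cast_ne_zero.2 hp.ne_zero), ← Complex.natCast_log,
        ← hLd]
      have e : (L : ℂ) * -g p =
          Complex.log z + ((-(l + 1) : ℤ) : ℂ) * (2 * (π : ℂ) * I) := by
        have hL' : (L : ℂ) ≠ 0 := Complex.ofReal_ne_zero.2 hL0.ne'
        rw [hgp, hcz]
        push_cast
        field_simp
        ring
      rw [e, Complex.exp_add, Complex.exp_int_mul_two_pi_mul_I, mul_one, Complex.exp_log hz0]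
  -- the bad points
  obtain ⟨Z, hZ⟩ : ∃ Z, Z = (finite_zetaZeros ((K : ℝ) * (|t| + 1))).toFinset := ⟨_, rfl⟩
  obtain ⟨bad, hbad⟩ : ∃ bad : Finset ℂ, bad = (Finset.Icc 1 K ×ˢ (Z ∪ Z.image conj)).image
      fun kρ : ℕ × ℂ => kρ.2 / (kρ.1 : ℂ) := ⟨_, rfl⟩
  obtain ⟨P, hP⟩ : ∃ P, P = (Nat.primesLE n).filter fun p => p₀ ≤ p := ⟨_, rfl⟩
  have hinj : Set.InjOn g P := fun p hp q hq e => by
    rw [hP, Finset.mem_coe, Finset.mem_filter, Nat.mem_primesLE] at hp hq
    have h1 := (key p hp.1.2 hp.2).2.1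
    have h2 := (key q hq.1.2 hq.2).2.1
    rw [← e] at h2
    have h3 : Real.log p = Real.log q :=
      mul_left_cancel₀ (key p hp.1.2 hp.2).1.ne' (h1.trans h2.symm)
    exact_mod_cast Real.log_injOn_pos (Set.mem_Ioi.2 (Nat.cast_pos.2 hp.1.2.pos))
      (Set.mem_Ioi.2 (Nat.cast_pos.2 hq.1.2.pos)) h3
  have hcard : bad.card < P.card := by
    have h1 : bad.card ≤ K * (2 * zeroCount ((K : ℝ) * (|t| + 1))) := by
      rw [hbad]
      refine Finset.card_image_le.trans ?_
      rw [Finset.card_product, Nat.card_Icc, Nat.add_sub_cancel]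
      refine Nat.mul_le_mul_left K ((Finset.card_union_le _ _).trans ?_)
      have h3 := card_zetaZeros_le ((K : ℝ) * (|t| + 1))
      rw [← hZ] at h3
      have h4 := Finset.card_image_le (s := Z) (f := conj)
      omega
    have h2 : Nat.primeCounting n ≤ P.card + p₀ := by
      rw [← Nat.primesLE_card_eq_primeCounting, ← Finset.card_range p₀, hP]
      refine (Finset.card_le_card fun p hp => ?_).trans (Finset.card_union_le _ _)
      rw [Finset.mem_union, Finset.mem_filter, Finset.mem_range]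
      exact (le_or_gt p₀ p).imp (fun h => ⟨hp, h⟩) id
    omega
  obtain ⟨p, hp, hpb⟩ : ∃ p ∈ P, g p ∉ bad := by
    by_contra hcon
    push Not at hcon
    exact hcard.not_ge ((Finset.card_image_of_injOn hinj).symm.le.trans
      (Finset.card_le_card (Finset.image_subset_iff.2 hcon)))
  rw [hP, Finset.mem_filter, Nat.mem_primesLE] at hp
  obtain ⟨h0, hcL, hd, him, hat, hpow⟩ := key p hp.1.2 hp.2
  have hlt : 1 < ((K + 1 : ℕ) : ℝ) * (g p).re := by
    have hpn : Real.log p ≤ Real.log n :=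
      Real.log_le_log (Nat.cast_pos.2 hp.1.2.pos) (Nat.cast_le.2 hp.1.1)
    have h1 : Real.log n / c ≤ K := hK ▸ Nat.le_ceil _
    rw [div_le_iff₀ hc0] at h1
    have hlp : 0 < Real.log p := Real.log_pos (Nat.one_lt_cast.2 hp.1.2.one_lt)
    refine lt_of_mul_lt_mul_right ?_ hlp.le
    rw [one_mul, mul_assoc, hcL]
    push_cast
    linarith
  refine ⟨g p, h0, hd, analyticAt_and_eq_zero hW hlt (fun k hk hkK => ?_)
    (p := ⟨p, hp.1.2⟩) (by rw [show (((⟨p, hp.1.2⟩ : Nat.Primes) : ℕ) : ℂ) ^ (-g p) = z from hpow,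
      hz])⟩
  have hk0 : (0 : ℝ) < k := Nat.cast_pos.2 hk
  have him' : ((k : ℂ) * g p).im = k * (g p).im := by simp
  refine ⟨fun e => him ?_, fun hzero => hpb ?_⟩
  · rw [e, Complex.one_im] at him'
    exact (mul_eq_zero.1 him'.symm).resolve_left hk0.ne'
  · obtain ⟨w, hw⟩ : ∃ w, w = (k : ℂ) * g p := ⟨_, rfl⟩
    rw [← hw] at hzero him'
    have hre : 0 < w.re := by rw [hw]; simpa using mul_pos hk0 h0
    have hre1 : w.re < 1 := lt_of_not_ge fun h => riemannZeta_ne_zero_of_one_le_re h hzero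
    have hT : |w.im| ≤ K * (|t| + 1) := by
      rw [him', abs_mul, abs_of_pos hk0]
      exact mul_le_mul (Nat.cast_le.2 hkK) hat (abs_nonneg _) (Nat.cast_nonneg _)
    have hwz : w ∈ Z ∪ Z.image conj := by
      rcases lt_or_gt_of_ne (show w.im ≠ 0 by rw [him']; exact mul_ne_zero hk0.ne' him) with h | h
      · refine Finset.mem_union_right _ (Finset.mem_image.2 ⟨conj w, ?_, Complex.conj_conj w⟩)
        rw [hZ, Set.Finite.mem_toFinset, FA.RiemannMangoldt.Summary.zetaZeros_spec]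
        refine ⟨by rw [riemannZeta_conj, hzero, map_zero], ?_⟩
        rw [Complex.conj_re, Complex.conj_im]
        exact ⟨hre, hre1, neg_pos.2 h, (neg_le_abs _).trans hT⟩
      · refine Finset.mem_union_left _ ?_
        rw [hZ, Set.Finite.mem_toFinset, FA.RiemannMangoldt.Summary.zetaZeros_spec]
        exact ⟨hzero, hre, hre1, h, (le_abs_self _).trans hT⟩
    rw [hbad, Finset.mem_image]
    refine ⟨(k, w), Finset.mem_product.2 ⟨Finset.mem_Icc.2 ⟨hk, hkK⟩, hwz⟩, ?_⟩
    rw [hw, mul_div_cancel_left₀ _ (Nat.cast_ne_zero.2 hk.ne')]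

end FA.Estermann

end
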